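/-
S55 (Poitou–Tate), package C5 / C1 tool (helper71): SHAPIRO INJECTIVITY IN ALL DEGREES.

For a subgroup `S ≤ G` and `B : Rep k S`, the map
`Hⁿ(G, Coind_S^G B) ⟶ Hⁿ(S, B)` (restriction to `S`, then evaluation at `1`) is injective for
every `n` (`coind_counit_injective`).  Proof: induction on `n` by dimension shifting
(`H73.DimShift`), using the naturality of the connecting homomorphisms across a group
homomorphism (`δ_map_naturality`).

Family version (`detect_all`): if `A` is a finite product of coinductions through maps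
`e i : Res_{D i} A ⟶ B i` (hypotheses `hsep`, `hglue`), then a class of `Hⁿ(G, A)` whose images in
all `Hⁿ(D i, B i)` vanish is zero.
-/
import Mathlib
import Fermat.Agent.S55.H73.DimShift

set_option autoImplicit false

universe u

open CategoryTheory groupCohomology Rep

noncomputable section

namespace Fermat.Agent.S55.H71

open Fermat.Agent.S55.H73

section Naturality

variable {k : Type u} [CommRing k]

/-- The connecting homomorphisms are natural with respect to a group homomorphism `f : H →* G`
and a morphism of short exact sequences `Res_f X ⟶ Y`. -/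
theorem δ_map_naturality {G H : Type u} [Group G] [Group H] (f : H →* G)
    {X : ShortComplex (Rep.{u} k G)} {Y : ShortComplex (Rep.{u} k H)}
    (hX : X.ShortExact) (hY : Y.ShortExact)
    (φ₁ : res f X.X₁ ⟶ Y.X₁) (φ₂ : res f X.X₂ ⟶ Y.X₂) (φ₃ : res f X.X₃ ⟶ Y.X₃)
    (c₁ : (resFunctor f).map X.f ≫ φ₂ = φ₁ ≫ Y.f)
    (c₂ : (resFunctor f).map X.g ≫ φ₃ = φ₂ ≫ Y.g) (i j : ℕ) (hij : i + 1 = j) :
    δ hX i j hij ≫ map f φ₁ j = map f φ₃ i ≫ δ hY i j hij := by
  let Φ : X.map (cochainsFunctor k G) ⟶ Y.map (cochainsFunctor k H) :=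
    { τ₁ := cochainsMap f φ₁
      τ₂ := cochainsMap f φ₂
      τ₃ := cochainsMap f φ₃
      comm₁₂ := by
        have h1 : cochainsMap (MonoidHom.id G) X.f ≫ cochainsMap f φ₂ =
            cochainsMap f ((resFunctor f).map X.f ≫ φ₂) := rfl
        have h2 : cochainsMap f φ₁ ≫ cochainsMap (MonoidHom.id H) Y.f =
            cochainsMap f (φ₁ ≫ Y.f) := rfl
        show cochainsMap f φ₁ ≫ cochainsMap (MonoidHom.id H) Y.f =
          cochainsMap (MonoidHom.id G) X.f ≫ cochainsMap f φ₂
        rw [h1, h2, c₁]
      comm₂₃ := by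
        have h1 : cochainsMap (MonoidHom.id G) X.g ≫ cochainsMap f φ₃ =
            cochainsMap f ((resFunctor f).map X.g ≫ φ₃) := rfl
        have h2 : cochainsMap f φ₂ ≫ cochainsMap (MonoidHom.id H) Y.g =
            cochainsMap f (φ₂ ≫ Y.g) := rfl
        show cochainsMap f φ₂ ≫ cochainsMap (MonoidHom.id H) Y.g =
          cochainsMap (MonoidHom.id G) X.g ≫ cochainsMap f φ₃
        rw [h1, h2, c₂] }
  exact HomologicalComplex.HomologySequence.δ_naturality Φ
    (map_cochainsFunctor_shortExact hX) (map_cochainsFunctor_shortExact hY) i j hij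

end Naturality

section Core

variable {k G : Type u} [CommRing k] [Group G] (S : Subgroup G)

/-- Evaluation at `1`: the counit `Res_S Coind_S^G B ⟶ B`. -/
def coindEval (B : Rep.{u} k S) : res S.subtype (coind S.subtype B) ⟶ B :=
  (resCoindHomEquiv S.subtype (coind S.subtype B) B).symm (𝟙 _)

theorem coindEval_hom_apply (B : Rep.{u} k S) (f : (coind S.subtype B).V) :
    (coindEval S B).hom f = f.1 1 := rfl

theorem coindEval_naturality {B B' : Rep.{u} k S} (φ : B ⟶ B') :
    (resFunctor S.subtype).map (coindMap S.subtype φ) ≫ coindEval S B' = coindEval S B ≫ φ := by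
  apply Rep.hom_ext
  apply Representation.IntertwiningMap.ext
  refine LinearMap.ext fun f => ?_
  rfl

/-- The coinduction of a short exact sequence is short exact. -/
theorem coind_shortExact {Y : ShortComplex (Rep.{u} k S)} (hY : Y.ShortExact) :
    (Y.map (coindFunctor k S.subtype)).ShortExact where
  exact := by
    have := hY.mono_f
    exact hY.exact.map_of_mono_of_preservesKernel (coindFunctor k S.subtype) hY.mono_f
      inferInstance
  mono_f := by
    have := hY.mono_f
    exact (inferInstance : Mono ((coindFunctor k S.subtype).map Y.f))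
  epi_g := by
    have := hY.epi_g
    exact (inferInstance : Epi ((coindFunctor k S.subtype).map Y.g))

/-- The Shapiro map `Hⁿ(G, Coind_S^G B) ⟶ Hⁿ(S, B)`. -/
def shap (B : Rep.{u} k S) (n : ℕ) :
    groupCohomology (coind S.subtype B) n ⟶ groupCohomology B n :=
  map S.subtype (coindEval S B) n

theorem shap_zero_key (B : Rep.{u} k S) (x : groupCohomology (coind S.subtype B) 0) :
    (((H0Iso B).hom ((shap S B 0).hom x) : B.ρ.invariants) : B.V) =
      (((H0Iso (coind S.subtype B)).hom x : (coind S.subtype B).ρ.invariants) :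
        (coind S.subtype B).V).1 1 := by
  have := map_H0Iso_hom_f_apply S.subtype (coindEval S B) x
  exact this

theorem shap_zero_injective (B : Rep.{u} k S) : Function.Injective (shap S B 0).hom := by
  rw [injective_iff_map_eq_zero]
  intro x hx
  have h1 := shap_zero_key S B x
  rw [hx, map_zero] at h1
  set a := (H0Iso (coind S.subtype B)).hom x with ha
  have h2 : a = 0 := by
    apply Subtype.ext
    apply Subtype.ext
    funext g
    have h3 := a.2 g
    have h4 : (((coind S.subtype B).ρ g (a : (coind S.subtype B).V)) :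
        (coind S.subtype B).V).1 1 = (a : (coind S.subtype B).V).1 (1 * g) := rfl
    rw [h3, one_mul] at h4
    rw [← h4]
    exact h1.symm
  have h5 : (H0Iso (coind S.subtype B)).inv ((H0Iso (coind S.subtype B)).hom x) = x := by
    simp
  rw [← h5, ← ha, h2, map_zero]

theorem shap_zero_surjective (B : Rep.{u} k S) : Function.Surjective (shap S B 0).hom := by
  intro y
  set b := (H0Iso B).hom y with hb
  let f : (coind S.subtype B).V := ⟨fun _ => (b : B.V), fun s _ => (b.2 s).symm⟩
  have hf : f ∈ (coind S.subtype B).ρ.invariants := fun g => Subtype.ext (funext fun _ => rfl)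
  refine ⟨(H0Iso (coind S.subtype B)).inv ⟨f, hf⟩, ?_⟩
  have h1 := shap_zero_key S B ((H0Iso (coind S.subtype B)).inv ⟨f, hf⟩)
  have h2 : (H0Iso (coind S.subtype B)).hom ((H0Iso (coind S.subtype B)).inv ⟨f, hf⟩) = ⟨f, hf⟩ := by
    simp
  rw [h2] at h1
  have h3 : (H0Iso B).hom ((shap S B 0).hom ((H0Iso (coind S.subtype B)).inv ⟨f, hf⟩)) = b :=
    Subtype.ext h1
  have h4 : Function.Injective (H0Iso B).hom :=
    (ModuleCat.mono_iff_injective _).1 inferInstance
  exact h4 (h3.trans hb)

theorem cochainsMap_coindEval {B B' : Rep.{u} k S} (φ : B ⟶ B') :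
    cochainsMap (MonoidHom.id G) (coindMap S.subtype φ) ≫ cochainsMap S.subtype (coindEval S B') =
      cochainsMap S.subtype (coindEval S B) ≫ cochainsMap (MonoidHom.id S) φ := by
  have h1 : cochainsMap (MonoidHom.id G) (coindMap S.subtype φ) ≫
      cochainsMap S.subtype (coindEval S B') =
      cochainsMap S.subtype ((resFunctor S.subtype).map (coindMap S.subtype φ) ≫
        coindEval S B') := rfl
  have h2 : cochainsMap S.subtype (coindEval S B) ≫ cochainsMap (MonoidHom.id S) φ =
      cochainsMap S.subtype (coindEval S B ≫ φ) := rfl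
  rw [h1, h2, coindEval_naturality]

theorem shap_naturality {B B' : Rep.{u} k S} (φ : B ⟶ B') (n : ℕ) :
    map (MonoidHom.id G) (coindMap S.subtype φ) n ≫ shap S B' n =
      shap S B n ≫ map (MonoidHom.id S) φ n := by
  have h := congrArg (fun F => HomologicalComplex.homologyMap F n) (cochainsMap_coindEval S φ)
  simp only [HomologicalComplex.homologyMap_comp] at h
  exact h

theorem shap_naturality_apply {B B' : Rep.{u} k S} (φ : B ⟶ B') (n : ℕ)
    (w : groupCohomology (coind S.subtype B) n) :
    (shap S B' n).hom ((map (MonoidHom.id G) (coindMap S.subtype φ) n).hom w) =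
      (map (MonoidHom.id S) φ n).hom ((shap S B n).hom w) :=
  congrArg (fun F => F.hom w) (shap_naturality S φ n)

/-- **Shapiro injectivity in all degrees**: `Hⁿ(G, Coind_S^G B) ⟶ Hⁿ(S, B)` (restriction, then
evaluation at `1`) is injective. -/
theorem shap_injective (n : ℕ) : ∀ B : Rep.{u} k S, Function.Injective (shap S B n).hom := by
  induction n with
  | zero => exact fun B => shap_zero_injective S B
  | succ n ih =>
    intro B
    rw [injective_iff_map_eq_zero]
    intro x hx
    have hY : (shiftSES B).ShortExact := shiftSES_shortExact B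
    have hX : ((shiftSES B).map (coindFunctor k S.subtype)).ShortExact := coind_shortExact S hY
    have nat := δ_map_naturality S.subtype hX hY (coindEval S (shiftSES B).X₁)
      (coindEval S (shiftSES B).X₂) (coindEval S (shiftSES B).X₃)
      (coindEval_naturality S (shiftSES B).f) (coindEval_naturality S (shiftSES B).g)
      n (n + 1) rfl
    have hG : Limits.IsZero
        (groupCohomology ((shiftSES B).map (coindFunctor k S.subtype)).X₂ (n + 1)) :=
      (isZero_coindBot B n).of_iso (groupCohomology.coindIso (coindBot B) (n + 1))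
    have hepi : Epi (δ hX n (n + 1) rfl) := epi_δ_of_isZero hX n hG
    obtain ⟨y, rfl⟩ := (ModuleCat.epi_iff_surjective _).1 hepi x
    have hnat : (δ hY n (n + 1) rfl).hom ((shap S (shiftSES B).X₃ n).hom y) =
        (shap S B (n + 1)).hom ((δ hX n (n + 1) rfl).hom y) :=
      (congrArg (fun F => F.hom y) nat).symm
    rw [hx] at hnat
    rcases n with _ | m
    · obtain ⟨z, hz⟩ := (ShortComplex.moduleCat_exact_iff _).1
        (mapShortComplex₃_exact hY (i := 0) (j := 1) rfl) _ hnat
      obtain ⟨z', rfl⟩ := shap_zero_surjective S (shiftSES B).X₂ z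
      have hy : y = (map (MonoidHom.id G) (coindMap S.subtype (shiftSES B).g) 0).hom z' := by
        apply shap_zero_injective S (shiftSES B).X₃
        rw [shap_naturality_apply]
        exact hz.symm
      rw [hy]
      exact congrArg (fun F => F.hom z') (mapShortComplex₃ hX (i := 0) (j := 1) rfl).zero
    · have hS : Limits.IsZero (groupCohomology (shiftSES B).X₂ (m + 1)) := isZero_coindBot B m
      have hmono : Mono (δ hY (m + 1) (m + 1 + 1) rfl) := mono_δ_of_isZero hY (m + 1) hS
      have h0 : (shap S (shiftSES B).X₃ (m + 1)).hom y = 0 := by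
        apply (ModuleCat.mono_iff_injective _).1 hmono
        exact hnat.trans (map_zero _).symm
      have hy : y = 0 := ih (shiftSES B).X₃ (h0.trans (map_zero _).symm)
      rw [hy]
      exact map_zero _

end Core

section Family

variable {k G : Type u} [CommRing k] [Group G] (A : Rep.{u} k G) {I : Type}
  (D : I → Subgroup G) (B : ∀ i, Rep.{u} k (D i)) (e : ∀ i, res (D i).subtype A ⟶ B i)

/-- The adjoint `A ⟶ Coind_{D i}^G (B i)` of `e i`: `a ↦ (x ↦ e i (x • a))`. -/
def famEta (i : I) : A ⟶ coind (D i).subtype (B i) :=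
  resCoindToHom (D i).subtype A (B i) (e i)

theorem famEta_apply (i : I) (a : A.V) (x : G) :
    ((famEta A D B e i).hom a).1 x = (e i).hom (A.ρ x a) := rfl

theorem famEta_comp_eval (i : I) :
    (resFunctor (D i).subtype).map (famEta A D B e i) ≫ coindEval (D i) (B i) = e i := by
  apply Rep.hom_ext
  apply Representation.IntertwiningMap.ext
  refine LinearMap.ext fun a => ?_
  show (e i).hom (A.ρ 1 a) = (e i).hom a
  rw [map_one]
  rfl

theorem map_famEta_shap (i : I) (n : ℕ) :
    map (MonoidHom.id G) (famEta A D B e i) n ≫ shap (D i) (B i) n =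
      map (D i).subtype (e i) n := by
  have h1 : cochainsMap (MonoidHom.id G) (famEta A D B e i) ≫
      cochainsMap (D i).subtype (coindEval (D i) (B i)) =
      cochainsMap (D i).subtype ((resFunctor (D i).subtype).map (famEta A D B e i) ≫
        coindEval (D i) (B i)) := rfl
  rw [famEta_comp_eval] at h1
  have h := congrArg (fun F => HomologicalComplex.homologyMap F n) h1
  simp only [HomologicalComplex.homologyMap_comp] at h
  exact h

/-- The total map `A ⟶ ∏ᵢ Coind_{D i}^G (B i)`, as a linear map. -/
def famTotal : A.V →ₗ[k] (∀ i, (coind (D i).subtype (B i)).V) :=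
  LinearMap.pi fun i => (famEta A D B e i).hom.toLinearMap

theorem famTotal_apply (a : A.V) (i : I) : famTotal A D B e a i = (famEta A D B e i).hom a := rfl

variable {A D B e}

theorem famTotal_injective
    (hsep : ∀ a : A.V, (∀ (i : I) (x : G), (e i).hom (A.ρ x a) = 0) → a = 0) :
    Function.Injective (famTotal A D B e) := by
  rw [injective_iff_map_eq_zero]
  intro a ha
  refine hsep a fun i x => ?_
  have h := congrFun ha i
  have h2 : ((famEta A D B e i).hom a).1 x = 0 := by
    rw [← famTotal_apply, h]
    rfl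
  exact h2

theorem famTotal_surjective
    (hglue : ∀ f : ∀ i, G → (B i).V,
      (∀ (i : I) (d : D i) (x : G), f i ((d : G) * x) = (B i).ρ d (f i x)) →
      ∃ a : A.V, ∀ (i : I) (x : G), (e i).hom (A.ρ x a) = f i x) :
    Function.Surjective (famTotal A D B e) := by
  intro φ
  obtain ⟨a, ha⟩ := hglue (fun i => (φ i).1) fun i d x => (φ i).2 d x
  exact ⟨a, funext fun i => Subtype.ext (funext fun x => ha i x)⟩

end Family

section Detect

variable {k G : Type u} [CommRing k] [Group G]

/-- `Hⁿ(G, -)` is additive on finite sums of morphisms. -/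
theorem map_id_sum {A A' : Rep.{u} k G} {I : Type} [Fintype I] (f : I → (A ⟶ A')) (n : ℕ) :
    map (MonoidHom.id G) (∑ i, f i) n = ∑ i, map (MonoidHom.id G) (f i) n :=
  (cochainsFunctor k G ⋙ HomologicalComplex.homologyFunctor (ModuleCat k) _ n).map_sum f
    Finset.univ

/-- **Detection in all degrees.**  If `A` is the product of the coinductions of the `B i`
through the maps `e i` (`hsep`: jointly injective, `hglue`: every compatible family is
attained), then a class of `Hⁿ(G, A)` all of whose images in the `Hⁿ(D i, B i)` vanish is zero. -/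
theorem detect_all (A : Rep.{u} k G) {I : Type} [Finite I]
    (D : I → Subgroup G) (B : ∀ i, Rep.{u} k (D i)) (e : ∀ i, res (D i).subtype A ⟶ B i)
    (hsep : ∀ a : A.V, (∀ (i : I) (x : G), (e i).hom (A.ρ x a) = 0) → a = 0)
    (hglue : ∀ f : ∀ i, G → (B i).V,
      (∀ (i : I) (d : D i) (x : G), f i ((d : G) * x) = (B i).ρ d (f i x)) →
      ∃ a : A.V, ∀ (i : I) (x : G), (e i).hom (A.ρ x a) = f i x)
    (n : ℕ) (x : groupCohomology A n)
    (hx : ∀ i, (map (D i).subtype (e i) n).hom x = 0) : x = 0 := by
  classical
  cases nonempty_fintype I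
  let Ψ := LinearEquiv.ofBijective (famTotal A D B e)
    ⟨famTotal_injective hsep, famTotal_surjective hglue⟩
  have hΨ : ∀ (g : G) (a : A.V) (i : I),
      Ψ (A.ρ g a) i = (coind (D i).subtype (B i)).ρ g (Ψ a i) :=
    fun g a i => Rep.hom_comm_apply (famEta A D B e i) g a
  let s : ∀ i, coind (D i).subtype (B i) ⟶ A := fun i =>
    Rep.ofHom ⟨Ψ.symm.toLinearMap ∘ₗ
        LinearMap.single k (fun j => (coind (D j).subtype (B j)).V) i,
      fun g => LinearMap.ext fun φ => by
        apply Ψ.injective
        funext j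
        show Ψ (Ψ.symm (Pi.single i ((coind (D i).subtype (B i)).ρ g φ))) j =
          Ψ (A.ρ g (Ψ.symm (Pi.single i φ))) j
        rw [hΨ, LinearEquiv.apply_symm_apply, LinearEquiv.apply_symm_apply]
        by_cases hji : j = i
        · subst hji
          rw [Pi.single_eq_same, Pi.single_eq_same]
        · rw [Pi.single_eq_of_ne hji, Pi.single_eq_of_ne hji, map_zero]⟩
  have hsum : ∑ i, famEta A D B e i ≫ s i = 𝟙 A := by
    refine Rep.hom_ext (DFunLike.ext _ _ fun a => ?_)
    rw [Rep.sum_hom, Representation.IntertwiningMap.sum_apply]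
    have hterm : ∀ i, (famEta A D B e i ≫ s i).hom a = Ψ.symm (Pi.single i (Ψ a i)) :=
      fun i => rfl
    simp only [hterm]
    rw [← map_sum, Finset.univ_sum_single, LinearEquiv.symm_apply_apply]
    rfl
  have hη : ∀ i, (map (MonoidHom.id G) (famEta A D B e i) n).hom x = 0 := fun i =>
    shap_injective (D i) n (B i) (by
      have := congrArg (fun F => F.hom x) (map_famEta_shap A D B e i n)
      exact this.trans ((hx i).trans (map_zero _).symm))
  have h1 : x = (map (MonoidHom.id G) (𝟙 A) n).hom x := by
    rw [map_id]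
    rfl
  rw [h1, ← hsum, map_id_sum]
  have hterm : ∀ i, (map (MonoidHom.id G) (famEta A D B e i ≫ s i) n).hom x = 0 := fun i => by
    rw [map_id_comp]
    show (map (MonoidHom.id G) (s i) n).hom
      ((map (MonoidHom.id G) (famEta A D B e i) n).hom x) = 0
    rw [hη i, map_zero]
  have hs : (∑ i, map (MonoidHom.id G) (famEta A D B e i ≫ s i) n).hom x =
      ∑ i, (map (MonoidHom.id G) (famEta A D B e i ≫ s i) n).hom x := by
    rw [ModuleCat.hom_sum, LinearMap.sum_apply]
  rw [hs]
  exact Finset.sum_eq_zero fun i _ => hterm i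

/-- Vanishing form: if all `Hⁿ(D i, B i)` vanish, so does `Hⁿ(G, A)`. -/
theorem isZero_of_detect (A : Rep.{u} k G) {I : Type} [Finite I]
    (D : I → Subgroup G) (B : ∀ i, Rep.{u} k (D i)) (e : ∀ i, res (D i).subtype A ⟶ B i)
    (hsep : ∀ a : A.V, (∀ (i : I) (x : G), (e i).hom (A.ρ x a) = 0) → a = 0)
    (hglue : ∀ f : ∀ i, G → (B i).V,
      (∀ (i : I) (d : D i) (x : G), f i ((d : G) * x) = (B i).ρ d (f i x)) →
      ∃ a : A.V, ∀ (i : I) (x : G), (e i).hom (A.ρ x a) = f i x)
    (n : ℕ) (hB : ∀ i, Limits.IsZero (groupCohomology (B i) n)) :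
    Limits.IsZero (groupCohomology A n) := by
  have hsub : Subsingleton (groupCohomology A n) :=
    ⟨fun x y => by
      have hx := detect_all A D B e hsep hglue n x fun i =>
        @Subsingleton.elim _ (ModuleCat.subsingleton_of_isZero (hB i)) _ _
      have hy := detect_all A D B e hsep hglue n y fun i =>
        @Subsingleton.elim _ (ModuleCat.subsingleton_of_isZero (hB i)) _ _
      rw [hx, hy]⟩
  exact ModuleCat.isZero_of_subsingleton _

/-- Shapiro injectivity for a single coinduced module, elementwise. -/
theorem coind_counit_injective (S : Subgroup G) (B : Rep.{u} k S) (n : ℕ)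
    (x : groupCohomology (coind S.subtype B) n)
    (hx : (map S.subtype (coindEval S B) n).hom x = 0) : x = 0 :=
  shap_injective S n B (hx.trans (map_zero _).symm)

end Detect

end Fermat.Agent.S55.H71
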