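/-
S55 (Poitou–Tate), package C5 (helper71): leaf D1 `SemiLocalDetectStatement` in ALL degrees.

A class of `Hⁿ(Gal(K/k), (K ⊗ ℚ_q)ˣ)` all of whose localisations vanish is zero, for every `n`
(`K` a number field; no hypothesis on `K/k`).  One application of `detect_all` (Shapiro
injectivity in all degrees, `ShapiroAll.lean`) to helper31's gluing lemmas
`semiLocalRep_sep` / `semiLocalRep_glue` (`H31/SemiLocalGlue.lean`).
-/
import Mathlib
import Fermat.Agent.S55.H71.ShapiroAll
import Fermat.Agent.S55.H31.SemiLocalGlue

set_option autoImplicit false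

open CategoryTheory

noncomputable section

namespace Fermat.Agent.S55.H71

open Fermat.Agent.S55.H88 Fermat.Agent.S55.H31

variable (q : ℕ) [Fact q.Prime] (k K : Type) [Field k] [Field K] [Algebra k K] [NumberField K]

/-- **(D1) in all degrees.** -/
theorem semiLocalDetect (n : ℕ) : SemiLocalDetectStatement q k K n := fun x hx =>
  haveI : Finite (DblOrbit q k K) := finite_dblOrbit q k K
  detect_all (semiLocalRep q k K) (fun i : DblOrbit q k K => decompGroup q k i.emb)
    (fun i => locUnitsRep q k i.emb) (fun i => semiLocalToLoc q k i.emb)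
    (semiLocalRep_sep q k K) (semiLocalRep_glue q k K) n x (fun i => hx i.emb)

/-- Vanishing form: if the local cohomology groups `Hⁿ(D_w, K_wˣ)` vanish at all places above
`q`, then `Hⁿ(Gal(K/k), (K ⊗ ℚ_q)ˣ) = 0`. -/
theorem isZero_semiLocalRep (n : ℕ)
    (h : ∀ τ : K →+* PadicAlgCl q, Limits.IsZero (groupCohomology (locUnitsRep q k τ) n)) :
    Limits.IsZero (groupCohomology (semiLocalRep q k K) n) :=
  haveI : Finite (DblOrbit q k K) := finite_dblOrbit q k K
  isZero_of_detect (semiLocalRep q k K) (fun i : DblOrbit q k K => decompGroup q k i.emb)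
    (fun i => locUnitsRep q k i.emb) (fun i => semiLocalToLoc q k i.emb)
    (semiLocalRep_sep q k K) (semiLocalRep_glue q k K) n (fun i => h i.emb)

end Fermat.Agent.S55.H71
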