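/-
Program C (S55), package C5 (Part D input): the LOCAL GALOIS GROUP of a layer `K / k` at an
embedding `τ' : K →+* PadicAlgCl q`, in the shape needed to push global cohomology classes to
local ones.

* `locBase q τ'`  : `k_v = locField q (τ' ∘ algebraMap k K)` as a type `F` (an embedded local
  field in helper66's model),
* `locExt q τ'`   : `K_w = locField q τ'` as an `IntermediateField (locBase q τ') (PadicAlgCl q)`,
* `locEmbL q τ'`  : `K →+* K_w`,
* `locToGlob q τ' : Gal(K_w / k_v) →* Gal(K / k)` for `K / k` normal, characterised by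
  `τ' (locToGlob α x) = α (τ' x)`; it is injective with range the decomposition group
  `H88.decompGroup q k τ'`  (= leaf (C5) LOCGAL of C5, in the local-to-global direction).

Mathlib + `H88/SemiLocalBasic` only.
-/
import Mathlib
import Fermat.Agent.S55.H88.SemiLocalBasic

set_option autoImplicit false

open scoped IntermediateField NNReal

noncomputable section

namespace Fermat.Agent.S55.H71

open Fermat.Agent.S55.H88

variable (q : ℕ) [Fact q.Prime]
variable {k K : Type*} [Field k] [Field K] [Algebra k K]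
variable (τ' : K →+* PadicAlgCl q)

theorem locField_comp_le :
    locField q (τ'.comp (algebraMap k K)) ≤ locField q τ' := by
  refine IntermediateField.adjoin_le_iff.mpr ?_
  rintro _ ⟨y, rfl⟩
  exact IntermediateField.subset_adjoin ℚ_[q] (Set.range τ') ⟨algebraMap k K y, rfl⟩

/-- The completion `k_v` of the base field, as a type. -/
abbrev locBase : Type := ↥(locField q (τ'.comp (algebraMap k K)))

/-- The completion `K_w` as an extension of `k_v` inside `PadicAlgCl q`. -/
def locExt : IntermediateField (locBase q (k := k) τ') (PadicAlgCl q) :=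
  IntermediateField.extendScalars (locField_comp_le q (k := k) τ')

theorem mem_locExt_iff {y : PadicAlgCl q} :
    y ∈ locExt q (k := k) τ' ↔ y ∈ locField q τ' := Iff.rfl

/-- The embedding `K → K_w`. -/
def locEmbL : K →+* locExt q (k := k) τ' where
  toFun x := ⟨τ' x, IntermediateField.subset_adjoin ℚ_[q] (Set.range τ') ⟨x, rfl⟩⟩
  map_one' := Subtype.ext (map_one τ')
  map_mul' x y := Subtype.ext (map_mul τ' x y)
  map_zero' := Subtype.ext (map_zero τ')
  map_add' x y := Subtype.ext (map_add τ' x y)

@[simp] theorem coe_locEmbL (x : K) :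
    ((locEmbL q (k := k) τ' x : locExt q (k := k) τ') : PadicAlgCl q) = τ' x := rfl

theorem locEmbL_algebraMap (y : k) :
    locEmbL q (k := k) τ' (algebraMap k K y)
      = algebraMap (locBase q (k := k) τ') (locExt q (k := k) τ')
          (locEmb q (τ'.comp (algebraMap k K)) y) := rfl

/-- Extensionality: a `k_v`-algebra homomorphism out of `K_w` is determined by its values on
the image of `K`. -/
theorem algHom_ext_locExt {A : Type*} [Semiring A] [Algebra (locBase q (k := k) τ') A]
    (α β : locExt q (k := k) τ' →ₐ[locBase q (k := k) τ'] A)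
    (h : ∀ x : K, α (locEmbL q τ' x) = β (locEmbL q τ' x)) : α = β := by
  have key : ∀ (y : PadicAlgCl q) (hy : y ∈ locField q τ'),
      α ⟨y, hy⟩ = β ⟨y, hy⟩ := by
    intro y hy
    unfold locField at hy
    induction hy using IntermediateField.adjoin_induction with
    | mem x hx =>
      obtain ⟨a, rfl⟩ := hx
      exact h a
    | algebraMap c =>
      have e : (⟨algebraMap ℚ_[q] (PadicAlgCl q) c,
          (locExt q (k := k) τ').algebraMap_mem (algebraMap ℚ_[q] (locBase q (k := k) τ') c)⟩ :
          locExt q (k := k) τ')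
          = algebraMap (locBase q (k := k) τ') (locExt q (k := k) τ')
              (algebraMap ℚ_[q] (locBase q (k := k) τ') c) := rfl
      exact (congrArg α e).trans ((α.commutes _).trans ((β.commutes _).symm.trans
        (congrArg β e).symm))
    | add x y hx hy ihx ihy =>
      have e : (⟨x + y, add_mem hx hy⟩ : locExt q (k := k) τ')
          = (⟨x, hx⟩ : locExt q (k := k) τ') + ⟨y, hy⟩ := rfl
      exact (congrArg α e).trans ((map_add α _ _).trans
        ((congrArg₂ (· + ·) ihx ihy).trans ((map_add β _ _).symm.trans (congrArg β e).symm)))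
    | inv x hx ihx =>
      have e : (⟨x⁻¹, inv_mem hx⟩ : locExt q (k := k) τ')
          = (⟨x, hx⟩ : locExt q (k := k) τ')⁻¹ := rfl
      by_cases hx0 : (⟨x, hx⟩ : locExt q (k := k) τ') = 0
      · have e0 : (⟨x⁻¹, inv_mem hx⟩ : locExt q (k := k) τ') = 0 := by rw [e, hx0, inv_zero]
        exact (congrArg α e0).trans ((map_zero α).trans ((map_zero β).symm.trans
          (congrArg β e0).symm))
      · -- both sides are inverses of the same element
        have h1 : α ⟨x⁻¹, inv_mem hx⟩ * α ⟨x, hx⟩ = 1 := by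
          rw [← map_mul, e, inv_mul_cancel₀ hx0, map_one]
        have h2 : β ⟨x, hx⟩ * β ⟨x⁻¹, inv_mem hx⟩ = 1 := by
          rw [← map_mul, e, mul_inv_cancel₀ hx0, map_one]
        calc α ⟨x⁻¹, inv_mem hx⟩ = α ⟨x⁻¹, inv_mem hx⟩ * (β ⟨x, hx⟩ * β ⟨x⁻¹, inv_mem hx⟩) := by
              rw [h2, mul_one]
          _ = (α ⟨x⁻¹, inv_mem hx⟩ * α ⟨x, hx⟩) * β ⟨x⁻¹, inv_mem hx⟩ := by
              rw [ihx, mul_assoc]
          _ = β ⟨x⁻¹, inv_mem hx⟩ := by rw [h1, one_mul]
    | mul x y hx hy ihx ihy =>
      have e : (⟨x * y, mul_mem hx hy⟩ : locExt q (k := k) τ')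
          = (⟨x, hx⟩ : locExt q (k := k) τ') * ⟨y, hy⟩ := rfl
      exact (congrArg α e).trans ((map_mul α _ _).trans
        ((congrArg₂ (· * ·) ihx ihy).trans ((map_mul β _ _).symm.trans (congrArg β e).symm)))
  exact AlgHom.ext fun y => key y.1 y.2

section Normal

variable [Normal k K]

/-- A local automorphism induces a (unique) global automorphism. -/
theorem exists_glob
    (α : locExt q (k := k) τ' ≃ₐ[locBase q (k := k) τ'] locExt q (k := k) τ') :
    ∃ σ : K ≃ₐ[k] K, ∀ x : K,
      τ' (σ x) = ((α (locEmbL q τ' x) : locExt q (k := k) τ') : PadicAlgCl q) := by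
  let τ'' : K →+* PadicAlgCl q :=
    ((locExt q (k := k) τ').val : locExt q (k := k) τ' →+* PadicAlgCl q).comp
      ((α : locExt q (k := k) τ' →+* locExt q (k := k) τ').comp (locEmbL q τ'))
  have h : τ'.comp (algebraMap k K) = τ''.comp (algebraMap k K) := by
    ext y
    show τ' (algebraMap k K y)
      = ((α (locEmbL q τ' (algebraMap k K y)) : locExt q (k := k) τ') : PadicAlgCl q)
    rw [locEmbL_algebraMap, α.commutes]
    rfl
  obtain ⟨σ, hσ⟩ := exists_algEquiv_comp_eq q τ' τ'' h
  exact ⟨σ, fun x => (RingHom.congr_fun hσ x).symm⟩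

/-- The global automorphism induced by a local one. -/
def locToGlobFun
    (α : locExt q (k := k) τ' ≃ₐ[locBase q (k := k) τ'] locExt q (k := k) τ') : K ≃ₐ[k] K :=
  (exists_glob q τ' α).choose

theorem locToGlobFun_spec
    (α : locExt q (k := k) τ' ≃ₐ[locBase q (k := k) τ'] locExt q (k := k) τ') (x : K) :
    τ' (locToGlobFun q τ' α x)
      = ((α (locEmbL q τ' x) : locExt q (k := k) τ') : PadicAlgCl q) :=
  (exists_glob q τ' α).choose_spec x

theorem locEmbL_locToGlobFun
    (α : locExt q (k := k) τ' ≃ₐ[locBase q (k := k) τ'] locExt q (k := k) τ') (x : K) :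
    locEmbL q τ' (locToGlobFun q τ' α x) = α (locEmbL q τ' x) :=
  Subtype.ext (locToGlobFun_spec q τ' α x)

/-- **Local-to-global**: `Gal(K_w / k_v) →* Gal(K / k)`, `τ' (locToGlob α x) = α (τ' x)`. -/
def locToGlob :
    (locExt q (k := k) τ' ≃ₐ[locBase q (k := k) τ'] locExt q (k := k) τ') →* (K ≃ₐ[k] K) where
  toFun := locToGlobFun q τ'
  map_one' := by
    ext x
    apply τ'.injective
    rw [locToGlobFun_spec]
    rfl
  map_mul' α β := by
    ext x
    apply τ'.injective
    rw [locToGlobFun_spec]
    show _ = τ' (locToGlobFun q τ' α (locToGlobFun q τ' β x))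
    rw [locToGlobFun_spec, locEmbL_locToGlobFun]
    rfl

theorem locToGlob_spec
    (α : locExt q (k := k) τ' ≃ₐ[locBase q (k := k) τ'] locExt q (k := k) τ') (x : K) :
    τ' (locToGlob q τ' α x)
      = ((α (locEmbL q τ' x) : locExt q (k := k) τ') : PadicAlgCl q) :=
  locToGlobFun_spec q τ' α x

theorem locEmbL_locToGlob
    (α : locExt q (k := k) τ' ≃ₐ[locBase q (k := k) τ'] locExt q (k := k) τ') (x : K) :
    locEmbL q τ' (locToGlob q τ' α x) = α (locEmbL q τ' x) :=
  locEmbL_locToGlobFun q τ' α x

theorem locToGlob_injective : Function.Injective (locToGlob q (k := k) τ') := by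
  rw [injective_iff_map_eq_one]
  intro α hα
  have h : (α : locExt q (k := k) τ' →ₐ[locBase q (k := k) τ'] locExt q (k := k) τ')
      = AlgHom.id _ _ := by
    apply algHom_ext_locExt
    intro x
    show α (locEmbL q τ' x) = locEmbL q τ' x
    rw [← locEmbL_locToGlob, hα]
    rfl
  exact AlgEquiv.ext fun y => congrArg (fun φ : locExt q (k := k) τ' →ₐ[locBase q (k := k) τ']
    locExt q (k := k) τ' => φ y) h

end Normal

section Decomp

/-- If `τ' ∘ s = g ∘ τ'` then `g` maps `K_w = ℚ_q(τ' K)` into itself. -/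
theorem map_mem_locField_of_comp (s : K →+* K) (g : PadicAlgCl q ≃ₐ[ℚ_[q]] PadicAlgCl q)
    (hg : τ'.comp s = (g : PadicAlgCl q →+* PadicAlgCl q).comp τ') {y : PadicAlgCl q}
    (hy : y ∈ locField q τ') : g y ∈ locField q τ' := by
  unfold locField at hy ⊢
  induction hy using IntermediateField.adjoin_induction with
  | mem x hx =>
    obtain ⟨a, rfl⟩ := hx
    have h1 : g (τ' a) = τ' (s a) := (RingHom.congr_fun hg a).symm
    rw [h1]
    exact IntermediateField.subset_adjoin ℚ_[q] (Set.range τ') ⟨s a, rfl⟩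
  | algebraMap c =>
    rw [g.commutes]
    exact IntermediateField.algebraMap_mem _ c
  | add x y _ _ hx hy =>
    rw [map_add]
    exact add_mem hx hy
  | inv x _ hx =>
    rw [map_inv₀]
    exact inv_mem hx
  | mul x y _ _ hx hy =>
    rw [map_mul]
    exact mul_mem hx hy

/-- The local automorphism attached to an element of the decomposition group (with a chosen
witness `g`). -/
def globToLoc (σ : K ≃ₐ[k] K) (g : PadicAlgCl q ≃ₐ[ℚ_[q]] PadicAlgCl q)
    (hg : τ'.comp ((σ : K ≃+* K) : K →+* K) = (g : PadicAlgCl q →+* PadicAlgCl q).comp τ') :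
    locExt q (k := k) τ' ≃ₐ[locBase q (k := k) τ'] locExt q (k := k) τ' where
  toFun y := ⟨g y, map_mem_locField_of_comp q τ' _ g hg y.2⟩
  invFun y := ⟨g.symm y, map_mem_locField_of_comp q τ' ((σ.symm : K ≃+* K) : K →+* K) g.symm
    (RingHom.ext fun x => by
      have h1 : τ' (σ (σ.symm x)) = g (τ' (σ.symm x)) := RingHom.congr_fun hg (σ.symm x)
      rw [σ.apply_symm_apply] at h1
      show τ' (σ.symm x) = g.symm (τ' x)
      rw [h1, g.symm_apply_apply]) y.2⟩
  left_inv y := Subtype.ext (g.symm_apply_apply y)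
  right_inv y := Subtype.ext (g.apply_symm_apply y)
  map_mul' x y := Subtype.ext (map_mul g (x : PadicAlgCl q) y)
  map_add' x y := Subtype.ext (map_add g (x : PadicAlgCl q) y)
  commutes' c := Subtype.ext (by
    show g ((c : locBase q (k := k) τ') : PadicAlgCl q) = c
    have h2 : (g : PadicAlgCl q →+* PadicAlgCl q).comp (τ'.comp (algebraMap k K))
        = ((1 : PadicAlgCl q ≃ₐ[ℚ_[q]] PadicAlgCl q) : PadicAlgCl q →+* PadicAlgCl q).comp
            (τ'.comp (algebraMap k K)) := by
      refine RingHom.ext fun y => ?_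
      have h1 : τ' (σ (algebraMap k K y)) = g (τ' (algebraMap k K y)) :=
        RingHom.congr_fun hg (algebraMap k K y)
      rw [σ.commutes] at h1
      exact h1.symm
    exact eqOn_locField q (τ'.comp (algebraMap k K)) g 1 h2 c.2)

@[simp] theorem coe_globToLoc (σ : K ≃ₐ[k] K) (g : PadicAlgCl q ≃ₐ[ℚ_[q]] PadicAlgCl q)
    (hg : τ'.comp ((σ : K ≃+* K) : K →+* K) = (g : PadicAlgCl q →+* PadicAlgCl q).comp τ')
    (y : locExt q (k := k) τ') :
    ((globToLoc q τ' σ g hg y : locExt q (k := k) τ') : PadicAlgCl q) = g y := rfl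

variable [Normal k K]

/-- **(C5 = LOCGAL)** The image of `Gal(K_w / k_v)` in `Gal(K / k)` is the decomposition
group. -/
theorem range_locToGlob : (locToGlob q (k := k) τ').range = decompGroup q k τ' := by
  ext σ
  constructor
  · rintro ⟨α, rfl⟩
    let α' : ↥(locField q τ') ≃ₐ[ℚ_[q]] ↥(locField q τ') :=
      { toFun := fun y => ⟨((α ⟨y.1, y.2⟩ : locExt q (k := k) τ') : PadicAlgCl q),
          (α ⟨y.1, y.2⟩).2⟩
        invFun := fun y => ⟨((α.symm ⟨y.1, y.2⟩ : locExt q (k := k) τ') : PadicAlgCl q),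
          (α.symm ⟨y.1, y.2⟩).2⟩
        left_inv := fun y => Subtype.ext
          (congrArg Subtype.val (α.symm_apply_apply ⟨y.1, y.2⟩))
        right_inv := fun y => Subtype.ext
          (congrArg Subtype.val (α.apply_symm_apply ⟨y.1, y.2⟩))
        map_mul' := fun x y => Subtype.ext
          (congrArg Subtype.val (map_mul α ⟨x.1, x.2⟩ ⟨y.1, y.2⟩))
        map_add' := fun x y => Subtype.ext
          (congrArg Subtype.val (map_add α ⟨x.1, x.2⟩ ⟨y.1, y.2⟩))
        commutes' := fun c => Subtype.ext
          (congrArg Subtype.val (α.commutes (algebraMap ℚ_[q] (locBase q (k := k) τ') c))) }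
    refine ⟨α'.liftNormal (PadicAlgCl q), RingHom.ext fun x => ?_⟩
    have h1 := AlgEquiv.liftNormal_commutes α' (PadicAlgCl q)
      ⟨τ' x, IntermediateField.subset_adjoin ℚ_[q] (Set.range τ') ⟨x, rfl⟩⟩
    show τ' (locToGlob q τ' α x) = (α'.liftNormal (PadicAlgCl q)) (τ' x)
    rw [locToGlob_spec]
    exact h1.symm
  · rintro ⟨g, hg⟩
    refine ⟨globToLoc q τ' σ g hg, ?_⟩
    ext x
    apply τ'.injective
    rw [locToGlob_spec]
    show g (τ' x) = τ' (σ x)
    exact (RingHom.congr_fun hg x).symm

/-- `locToGlob` as an isomorphism onto the decomposition group. -/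
def locEquivDecomp :
    (locExt q (k := k) τ' ≃ₐ[locBase q (k := k) τ'] locExt q (k := k) τ') ≃* decompGroup q k τ' :=
  (MonoidHom.ofInjective (locToGlob_injective q τ')).trans
    (MulEquiv.subgroupCongr (range_locToGlob q τ'))

@[simp] theorem coe_locEquivDecomp
    (α : locExt q (k := k) τ' ≃ₐ[locBase q (k := k) τ'] locExt q (k := k) τ') :
    ((locEquivDecomp q τ' α : decompGroup q k τ') : K ≃ₐ[k] K) = locToGlob q τ' α := rfl

end Decomp

section Instances

/-- `K_w / k_v` is normal when `K / k` is. -/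
instance normal_locExt [Normal k K] :
    Normal (locBase q (k := k) τ') (locExt q (k := k) τ') := by
  rw [IntermediateField.normal_iff_forall_map_le']
  intro g
  rintro _ ⟨y, hy, rfl⟩
  let gq : PadicAlgCl q ≃ₐ[ℚ_[q]] PadicAlgCl q := g.restrictScalars ℚ_[q]
  have h : τ'.comp (algebraMap k K)
      = ((gq : PadicAlgCl q →+* PadicAlgCl q).comp τ').comp (algebraMap k K) := by
    ext a
    show τ' (algebraMap k K a) = g (τ' (algebraMap k K a))
    exact (g.commutes (locEmb q (τ'.comp (algebraMap k K)) a)).symm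
  obtain ⟨σ, hσ⟩ := exists_algEquiv_comp_eq q τ' _ h
  exact map_mem_locField_of_comp q τ' _ gq hσ.symm hy

/-- `K_w / k_v` is finite for a number field `K`. -/
instance finiteDimensional_locExt [NumberField K] :
    FiniteDimensional (locBase q (k := k) τ') (locExt q (k := k) τ') := by
  let e : ↥(locField q τ') →ₗ[ℚ_[q]] ↥(locExt q (k := k) τ') :=
    { toFun := fun y => ⟨y.1, y.2⟩
      map_add' := fun _ _ => rfl
      map_smul' := fun _ _ => rfl }
  have h2 : Module.Finite ℚ_[q] (locExt q (k := k) τ') :=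
    Module.Finite.of_surjective e (fun y => ⟨⟨y.1, y.2⟩, rfl⟩)
  exact Module.Finite.of_restrictScalars_finite ℚ_[q] _ _

/-- `K_w / k_v` is Galois when `K / k` is normal (characteristic zero). -/
instance isGalois_locExt [Normal k K] :
    IsGalois (locBase q (k := k) τ') (locExt q (k := k) τ') := ⟨⟩

end Instances

end Fermat.Agent.S55.H71
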