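/-
S55 (Poitou–Tate), sub-package LOC of C9b (designer helper66), leaf (LOC-C) = tasks row 484
(helper71): `cohRealise : H66.CohRealiseStatement p q`.

If `c` realises `f` at the finite level `L'/E` and `f - f' = dw` with `w` a level function on
`Gal(Ω/E)` (`ζ ∈ E`), then over a larger finite Galois `L''/E` the inflation of `[c]` is the
class of a cocycle realising `f'`.

Proof.  The level `F'` of `w` gives (LVL)(a) a finite Galois `L₀/ℚ_q` with
`Gal(Ω/L₀) ≤ (Dloc q).sub F'`; `L'' := L' ⊔ L₁` with `L₁/E` finite Galois containing `L₀`.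
Then `w` factors through `Gal(L''/E)`, and `c'' := infl c - d (ζ ^ w)`.
-/
import Fermat.Agent.S55.H66.LocSpec
import Fermat.Agent.S55.H72.CorrEExists
import Fermat.Agent.S55.H63.LocalLevels

set_option autoImplicit false

open CategoryTheory

noncomputable section

namespace Fermat.Agent.S55.H71

open Fermat.Agent.S55.H49 Fermat.Agent.S55.H26 Fermat.Agent.S55.H66 Fermat.Agent.S55.H72
open IntermediateField groupCohomology

variable (p : ℕ) [Fact p.Prime] (q : ℕ) [Fact q.Prime]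

/-- `a ↦ ζ ^ a` as an additive map `𝔽_p → Lˣ` (for `ζ ^ p = 1`). -/
def zetaPowHom {F : Type} [Field F] [Algebra F (PadicAlgCl q)]
    {L : IntermediateField F (PadicAlgCl q)} (ζ : Lˣ) (hζ : ζ ^ p = 1) :
    ZMod p →+ Rep.ofAlgebraAutOnUnits F L :=
  AddMonoidHom.mk' (zetaPow p ζ) (zetaPow_add p q ζ hζ)

theorem zetaPowHom_apply {F : Type} [Field F] [Algebra F (PadicAlgCl q)]
    {L : IntermediateField F (PadicAlgCl q)} (ζ : Lˣ) (hζ : ζ ^ p = 1) (a : ZMod p) :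
    zetaPowHom p q ζ hζ a = zetaPow p ζ a := rfl

section Generic

variable {q}
variable {F : Type} [Field F] [Algebra F (PadicAlgCl q)]
variable {L E : IntermediateField F (PadicAlgCl q)}

/-- The value of an inflated 2-cocycle. -/
theorem mapCocycles₂_infl_apply [Normal F L] (h : L ≤ E)
    (c : cocycles₂ (Rep.ofAlgebraAutOnUnits F L)) (σ₁ σ₂ : E ≃ₐ[F] E) :
    (mapCocycles₂ (resHom h) (inflRep h) c).1 (σ₁, σ₂) =
      (inflRep h).hom (c.1 (resHom h σ₁, resHom h σ₂)) := rfl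

/-- The class of `infl c - d b` is the inflation of the class of `c`. -/
theorem H2π_infl_sub_d [Normal F L] (h : L ≤ E)
    (c : cocycles₂ (Rep.ofAlgebraAutOnUnits F L))
    (b : (E ≃ₐ[F] E) → Rep.ofAlgebraAutOnUnits F E) :
    H2π (Rep.ofAlgebraAutOnUnits F E)
      (mapCocycles₂ (resHom h) (inflRep h) c -
        ⟨d₁₂ (Rep.ofAlgebraAutOnUnits F E) b, d₁₂_apply_mem_cocycles₂ b⟩) =
      (inflH2 h).hom (H2π (Rep.ofAlgebraAutOnUnits F L) c) := by
  rw [map_sub]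
  have h0 : H2π (Rep.ofAlgebraAutOnUnits F E)
      ⟨d₁₂ (Rep.ofAlgebraAutOnUnits F E) b, d₁₂_apply_mem_cocycles₂ b⟩ = 0 :=
    (H2π_eq_zero_iff _).2 ⟨b, rfl⟩
  rw [h0, sub_zero]
  exact (H2π_comp_map_apply (resHom h) (inflRep h) c).symm

/-- The cocycle `infl c - d b`. -/
def inflSubD [Normal F L] (h : L ≤ E) (c : cocycles₂ (Rep.ofAlgebraAutOnUnits F L))
    (b : (E ≃ₐ[F] E) → Rep.ofAlgebraAutOnUnits F E) :
    cocycles₂ (Rep.ofAlgebraAutOnUnits F E) :=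
  mapCocycles₂ (resHom h) (inflRep h) c -
    ⟨d₁₂ (Rep.ofAlgebraAutOnUnits F E) b, d₁₂_apply_mem_cocycles₂ b⟩

theorem inflSubD_apply [Normal F L] (h : L ≤ E) (c : cocycles₂ (Rep.ofAlgebraAutOnUnits F L))
    (b : (E ≃ₐ[F] E) → Rep.ofAlgebraAutOnUnits F E) (σ₁ σ₂ : E ≃ₐ[F] E) :
    (inflSubD h c b).1 (σ₁, σ₂) =
      (inflRep h).hom (c.1 (resHom h σ₁, resHom h σ₂)) -
        ((Rep.ofAlgebraAutOnUnits F E).ρ σ₁ (b σ₂) - b (σ₁ * σ₂) + b σ₁) := rfl

theorem H2π_inflSubD [Normal F L] (h : L ≤ E) (c : cocycles₂ (Rep.ofAlgebraAutOnUnits F L))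
    (b : (E ≃ₐ[F] E) → Rep.ofAlgebraAutOnUnits F E) :
    H2π (Rep.ofAlgebraAutOnUnits F E) (inflSubD h c b) =
      (inflH2 h).hom (H2π (Rep.ofAlgebraAutOnUnits F L) c) :=
  H2π_infl_sub_d h c b

omit [Fact p.Prime] in
/-- The coefficient map of inflation on powers of a root of unity. -/
theorem inflRep_zetaPow [Normal F L] (h : L ≤ E) (ζ : Lˣ) (a : ZMod p) :
    (inflRep h).hom (zetaPow p ζ a) =
      zetaPow p (Units.map ((inclusion h : L →ₐ[F] E) : L →* E) ζ) a := by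
  show Rep.toAdditive.symm (Additive.ofMul
    (Units.map ((inclusion h : L →ₐ[F] E) : L →* E) (ζ ^ a.val))) = _
  rw [map_pow]
  rfl

omit [Fact p.Prime] in
/-- Powers of a root of unity lying in the base field are fixed by the Galois group. -/
theorem rho_zetaPow (ζ : Eˣ) (hζ : ((ζ : E) : PadicAlgCl q) ∈ Set.range (algebraMap F (PadicAlgCl q)))
    (g : E ≃ₐ[F] E) (a : ZMod p) :
    (Rep.ofAlgebraAutOnUnits F E).ρ g (zetaPow p ζ a) = zetaPow p ζ a := by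
  obtain ⟨y, hy⟩ := hζ
  have hy' : (ζ : E) = algebraMap F E y := Subtype.ext hy.symm
  have key : ((Additive.toMul (Rep.toAdditive
      ((Rep.ofAlgebraAutOnUnits F E).ρ g (zetaPow p ζ a))) : Eˣ) : E) =
      ((ζ ^ a.val : Eˣ) : E) := by
    show g ((ζ ^ a.val : Eˣ) : E) = _
    rw [Units.val_pow_eq_pow_val, map_pow]
    congr 1
    rw [hy']
    exact g.commutes _
  exact Units.ext key

end Generic

/-- Restriction in two steps. -/
theorem resHom_resE (E : IntermediateField ℚ_[q] (PadicAlgCl q))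
    (L' L'' : IntermediateField E (PadicAlgCl q)) [Normal E L'] [Normal E L''] (hle : L' ≤ L'')
    (h : E.fixingSubgroup) : resHom hle (resE E L'' h) = resE E L' h := by
  apply AlgEquiv.ext
  intro x
  apply Subtype.ext
  rw [resHom_apply, resE_apply_coe, resE_apply_coe]
  rfl

set_option maxHeartbeats 1000000 in
/-- The core of (LOC-C): `w` factoring through `Gal(L''/E)`. -/
theorem cohRealise_core (E : IntermediateField ℚ_[q] (PadicAlgCl q))
    (L' L'' : IntermediateField E (PadicAlgCl q)) [Normal E L'] [Normal E L''] (hle : L' ≤ L'')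
    (ζ' : L'ˣ) (hζ'p : ζ' ^ p = 1) (hζ'E : ((ζ' : L') : PadicAlgCl q) ∈ E)
    (f f' : E.fixingSubgroup × E.fixingSubgroup → ZMod p)
    (c : cocycles₂ (Rep.ofAlgebraAutOnUnits E L')) (hc : Realises p q E L' ζ' f c)
    (w : E.fixingSubgroup → ZMod p)
    (hw : ∀ h k : E.fixingSubgroup, resE E L'' h = resE E L'' k → w k = w h)
    (hfw : ∀ h₁ h₂ : E.fixingSubgroup, f (h₁, h₂) - f' (h₁, h₂) = w h₂ - w (h₁ * h₂) + w h₁) :
    ∃ (ζ'' : L''ˣ) (c'' : cocycles₂ (Rep.ofAlgebraAutOnUnits E L'')),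
      ((ζ'' : L'') : PadicAlgCl q) = ((ζ' : L') : PadicAlgCl q) ∧
      Realises p q E L'' ζ'' f' c'' ∧
      H2π _ c'' = (inflH2 hle).hom (H2π _ c) := by
  have hsurj := resE_surjective E L''
  let s : (L'' ≃ₐ[E] L'') → E.fixingSubgroup := Function.surjInv hsurj
  have hs : ∀ σ, resE E L'' (s σ) = σ := Function.surjInv_eq hsurj
  let ζ'' : L''ˣ := Units.map ((inclusion hle : L' →ₐ[E] L'') : L' →* L'') ζ'
  have hζ''val : ((ζ'' : L'') : PadicAlgCl q) = ((ζ' : L') : PadicAlgCl q) := rfl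
  have hζ''p : ζ'' ^ p = 1 := by
    show Units.map ((inclusion hle : L' →ₐ[E] L'') : L' →* L'') ζ' ^ p = 1
    rw [← map_pow, hζ'p, map_one]
  have hζ''E : ((ζ'' : L'') : PadicAlgCl q) ∈ Set.range (algebraMap E (PadicAlgCl q)) :=
    ⟨⟨_, hζ'E⟩, rfl⟩
  let b : (L'' ≃ₐ[E] L'') → Rep.ofAlgebraAutOnUnits E L'' := fun σ => zetaPow p ζ'' (w (s σ))
  have hb : ∀ h : E.fixingSubgroup, b (resE E L'' h) = zetaPow p ζ'' (w h) := by
    intro h
    show zetaPow p ζ'' (w (s (resE E L'' h))) = zetaPow p ζ'' (w h)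
    rw [hw h (s (resE E L'' h)) (hs _).symm]
  refine ⟨ζ'', inflSubD hle c b, hζ''val, ?_, H2π_inflSubD hle c b⟩
  intro h₁ h₂
  have e : f' (h₁, h₂) = f (h₁, h₂) - (w h₂ - w (h₁ * h₂) + w h₁) := by
    rw [← hfw h₁ h₂]; ring
  have e1 : (inflSubD hle c b).1 (resE E L'' h₁, resE E L'' h₂) =
      (inflRep hle).hom (c.1 (resHom hle (resE E L'' h₁), resHom hle (resE E L'' h₂))) -
        ((Rep.ofAlgebraAutOnUnits E L'').ρ (resE E L'' h₁) (b (resE E L'' h₂)) -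
          b (resE E L'' h₁ * resE E L'' h₂) + b (resE E L'' h₁)) :=
    inflSubD_apply hle c b _ _
  have e2 : b (resE E L'' h₁ * resE E L'' h₂) = zetaPow p ζ'' (w (h₁ * h₂)) := by
    rw [← hb (h₁ * h₂), map_mul]
  have e3 : (inflRep hle).hom (c.1 (resHom hle (resE E L'' h₁), resHom hle (resE E L'' h₂))) =
      zetaPow p ζ'' (f (h₁, h₂)) := by
    rw [resHom_resE q E L' L'' hle h₁, resHom_resE q E L' L'' hle h₂, hc h₁ h₂]
    exact inflRep_zetaPow p hle ζ' _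
  have e4 : (Rep.ofAlgebraAutOnUnits E L'').ρ (resE E L'' h₁) (b (resE E L'' h₂)) =
      zetaPow p ζ'' (w h₂) := by
    rw [hb h₂]
    exact rho_zetaPow p ζ'' hζ''E _ _
  refine e1.trans ?_
  rw [e2, e3, e4, hb h₁, e]
  show zetaPowHom p q ζ'' hζ''p _ - (zetaPowHom p q ζ'' hζ''p _ - zetaPowHom p q ζ'' hζ''p _ +
    zetaPowHom p q ζ'' hζ''p _) = zetaPowHom p q ζ'' hζ''p _
  rw [map_sub, map_add, map_sub]

theorem isGalois_sup_aux (E : IntermediateField ℚ_[q] (PadicAlgCl q))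
    (L' L₁ : IntermediateField E (PadicAlgCl q)) (h1 : Normal E L') (h2 : Normal E L₁) :
    IsGalois E ↥(L' ⊔ L₁) := by
  have : CharZero E := charZero_of_injective_algebraMap (algebraMap ℚ_[q] E).injective
  exact ⟨⟩

theorem finiteDimensional_sup_aux (E : IntermediateField ℚ_[q] (PadicAlgCl q))
    (L' L₁ : IntermediateField E (PadicAlgCl q)) (h1 : FiniteDimensional E L')
    (h2 : FiniteDimensional E L₁) : FiniteDimensional E ↥(L' ⊔ L₁) :=
  IntermediateField.finiteDimensional_sup L' L₁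

/-- Two elements of `Gal(Ω/E)` with the same restriction to `L''` differ by an element fixing
every subfield of `L''`. -/
theorem resE_eq_imp (E : IntermediateField ℚ_[q] (PadicAlgCl q))
    (L'' : IntermediateField E (PadicAlgCl q)) [Normal E L'']
    (L₀ : IntermediateField ℚ_[q] (PadicAlgCl q)) (hL₀ : ∀ x ∈ L₀, x ∈ L'')
    (h₁ h₂ : E.fixingSubgroup) (h12 : resE E L'' h₁ = resE E L'' h₂) :
    ((h₁⁻¹ * h₂ : E.fixingSubgroup) : PadicAlgCl q ≃ₐ[ℚ_[q]] PadicAlgCl q) ∈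
      L₀.fixingSubgroup := by
  rw [IntermediateField.mem_fixingSubgroup_iff]
  intro x hx
  have e1 := resE_apply_coe E L'' h₁ ⟨x, hL₀ x hx⟩
  have e2 := resE_apply_coe E L'' h₂ ⟨x, hL₀ x hx⟩
  rw [h12] at e1
  have e3 : (h₂ : PadicAlgCl q ≃ₐ[ℚ_[q]] PadicAlgCl q) x =
      (h₁ : PadicAlgCl q ≃ₐ[ℚ_[q]] PadicAlgCl q) x := e2.symm.trans e1
  show (h₁ : PadicAlgCl q ≃ₐ[ℚ_[q]] PadicAlgCl q)⁻¹
    ((h₂ : PadicAlgCl q ≃ₐ[ℚ_[q]] PadicAlgCl q) x) = x
  rw [e3]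
  exact (h₁ : PadicAlgCl q ≃ₐ[ℚ_[q]] PadicAlgCl q).symm_apply_apply x

set_option maxHeartbeats 2000000 in
/-- **Leaf (LOC-C)**. -/
theorem cohRealise : CohRealiseStatement p q := by
  intro E hEfin L' hL'fin hL'gal ζ' hζ'p hζ'E f f' c hc w hw hfw
  obtain ⟨F', hF', hinv⟩ := hw
  obtain ⟨L₀, hL₀fin, hL₀gal, hL₀sub⟩ := (H63.localFieldLevelsStatement q).1 F' hF'
  obtain ⟨L₁, hL₁fin, hL₁gal, hL₁⟩ := @exists_galois_over q _ E L₀ hL₀fin hL₀gal
  have hfin'' : FiniteDimensional E ↥(L' ⊔ L₁) := finiteDimensional_sup_aux q E L' L₁ hL'fin hL₁fin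
  have hgal'' : IsGalois E ↥(L' ⊔ L₁) :=
    isGalois_sup_aux q E L' L₁ hL'gal.to_normal hL₁gal.to_normal
  have hle : L' ≤ L' ⊔ L₁ := le_sup_left
  have hL₀'' : ∀ x ∈ L₀, x ∈ L' ⊔ L₁ := fun x hx => (le_sup_right : L₁ ≤ L' ⊔ L₁) (hL₁ x hx)
  have hweq : ∀ h k : E.fixingSubgroup,
      @resE q _ E (L' ⊔ L₁) hgal''.to_normal h = @resE q _ E (L' ⊔ L₁) hgal''.to_normal k →
        w k = w h := by
    intro h k hk
    have hn := hL₀sub (@resE_eq_imp q _ E (L' ⊔ L₁) hgal''.to_normal L₀ hL₀'' h k hk)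
    have := hinv h (h⁻¹ * k) hn
    rw [mul_inv_cancel_left] at this
    exact this
  obtain ⟨ζ'', c'', h1, h2, h3⟩ := @cohRealise_core p _ q _ E L' (L' ⊔ L₁) hL'gal.to_normal
    hgal''.to_normal hle ζ' hζ'p hζ'E f f' c hc w hweq hfw
  exact ⟨L' ⊔ L₁, hfin'', hgal'', hle, ζ'', c'', h1, h2, h3⟩

end Fermat.Agent.S55.H71
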