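/-
Program C (S55), package C5, leaf (A4) = `SemiLocalDenseStatement` of helper88's
`SemiLocalSpec.lean`: a number field `K` is dense in its semi-local algebra
`semiLocal q K = K ⊗_ℚ ℚ_q` (weak approximation above `q`).

Also: the structure lemma behind it (every semi-local element is a `ℚ_q`-linear combination of
the diagonal images of a `ℚ`-basis of `K`), and leaf (A2) as a corollary.

Mathlib + `H88/SemiLocalDefs` only.
-/
import Mathlib
import Fermat.Agent.S55.H88.SemiLocalDefs

set_option autoImplicit false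

open scoped IntermediateField NNReal
open Module NumberField

noncomputable section

namespace Fermat.Agent.S55.H71

open Fermat.Agent.S55.H88

variable (q : ℕ) [Fact q.Prime] (K : Type*) [Field K] [NumberField K]

/-- An element of `PadicAlgCl q` fixed by the whole Galois group lies in `ℚ_q`. -/
theorem mem_range_of_fixed (c : PadicAlgCl q)
    (h : ∀ g : PadicAlgCl q ≃ₐ[ℚ_[q]] PadicAlgCl q, g c = c) :
    c ∈ Set.range (algebraMap ℚ_[q] (PadicAlgCl q)) :=
  (InfiniteGalois.mem_range_algebraMap_iff_fixed c).mpr h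

/-- The trace as the sum over all ring embeddings into `PadicAlgCl q`. -/
theorem sum_embeddings_eq_trace (x : K) :
    ∑ τ : K →+* PadicAlgCl q, τ x = algebraMap ℚ (PadicAlgCl q) (Algebra.trace ℚ K x) := by
  rw [trace_eq_sum_embeddings (PadicAlgCl q)]
  exact Fintype.sum_equiv (RingHom.equivRatAlgHom K (PadicAlgCl q)) _ _ (fun τ => rfl)

/-- Post-composition with a Galois automorphism, as a permutation of the embeddings. -/
def compEquiv (g : PadicAlgCl q ≃ₐ[ℚ_[q]] PadicAlgCl q) :
    (K →+* PadicAlgCl q) ≃ (K →+* PadicAlgCl q) where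
  toFun τ := (g : PadicAlgCl q →+* PadicAlgCl q).comp τ
  invFun τ := (g.symm : PadicAlgCl q →+* PadicAlgCl q).comp τ
  left_inv τ := by
    ext x
    simp
  right_inv τ := by
    ext x
    simp

/-- **Structure of the semi-local algebra.**  For a `ℚ`-basis `b` of `K`, every element of
`semiLocal q K` is a `ℚ_q`-linear combination of the diagonal images of the `b j`. -/
theorem exists_coeff {ι : Type*} [Fintype ι] [DecidableEq ι] (b : Basis ι ℚ K)
    (f : semiLocal q K) :
    ∃ d : ι → ℚ_[q], ∀ τ : K →+* PadicAlgCl q,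
      (f : (K →+* PadicAlgCl q) → PadicAlgCl q) τ
        = ∑ j, algebraMap ℚ_[q] (PadicAlgCl q) (d j) * τ (b j) := by
  classical
  set bd : Basis ι ℚ K := (Algebra.traceForm ℚ K).dualBasis (traceForm_nondegenerate ℚ K) b
    with hbd
  -- the two matrices
  let A : Matrix (K →+* PadicAlgCl q) ι (PadicAlgCl q) := fun τ j => τ (b j)
  let B : Matrix ι (K →+* PadicAlgCl q) (PadicAlgCl q) := fun j τ => τ (bd j)
  have hBA : B * A = 1 := by
    ext j i
    rw [Matrix.mul_apply]
    have h1 : ∑ τ : K →+* PadicAlgCl q, B j τ * A τ i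
        = ∑ τ : K →+* PadicAlgCl q, τ (bd j * b i) :=
      Finset.sum_congr rfl fun τ _ => (map_mul τ _ _).symm
    rw [h1, sum_embeddings_eq_trace]
    have h2 : Algebra.trace ℚ K (bd j * b i) = if i = j then 1 else 0 := by
      rw [← Algebra.traceForm_apply, hbd]
      exact LinearMap.BilinForm.apply_dualBasis_left (traceForm_nondegenerate ℚ K) b j i
    rw [h2, Matrix.one_apply]
    by_cases hij : j = i
    · subst hij
      simp
    · have hji : ¬ i = j := fun h => hij h.symm
      simp [hij, hji]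
  have hcard : Fintype.card ι = Fintype.card (K →+* PadicAlgCl q) := by
    rw [NumberField.Embeddings.card K (PadicAlgCl q), Module.finrank_eq_card_basis b]
  have hAB : A * B = 1 := (Matrix.mul_eq_one_comm_of_equiv (Fintype.equivOfCardEq hcard)).mp hBA
  -- the coefficients
  let c : ι → PadicAlgCl q := fun j =>
    ∑ τ : K →+* PadicAlgCl q, (f : (K →+* PadicAlgCl q) → PadicAlgCl q) τ * τ (bd j)
  have hc : ∀ j, c j ∈ Set.range (algebraMap ℚ_[q] (PadicAlgCl q)) := by
    intro j
    apply mem_range_of_fixed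
    intro g
    show g (∑ τ : K →+* PadicAlgCl q, (f : (K →+* PadicAlgCl q) → PadicAlgCl q) τ * τ (bd j))
      = ∑ τ : K →+* PadicAlgCl q, (f : (K →+* PadicAlgCl q) → PadicAlgCl q) τ * τ (bd j)
    rw [map_sum]
    refine Fintype.sum_equiv (compEquiv q K g) _ _ (fun τ => ?_)
    rw [map_mul, ← semiLocal_apply_comp f g τ]
    rfl
  choose d hd using hc
  refine ⟨d, fun τ => ?_⟩
  have h3 : ∑ j, algebraMap ℚ_[q] (PadicAlgCl q) (d j) * τ (b j)
      = ∑ τ' : K →+* PadicAlgCl q,
          (f : (K →+* PadicAlgCl q) → PadicAlgCl q) τ' * (A * B) τ τ' := by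
    simp only [hd, c, Finset.sum_mul, Matrix.mul_apply, Finset.mul_sum]
    rw [Finset.sum_comm]
    refine Finset.sum_congr rfl fun τ' _ => Finset.sum_congr rfl fun j _ => ?_
    show (f : (K →+* PadicAlgCl q) → PadicAlgCl q) τ' * τ' (bd j) * τ (b j)
      = (f : (K →+* PadicAlgCl q) → PadicAlgCl q) τ' * (τ (b j) * τ' (bd j))
    ring
  rw [h3, hAB]
  simp [Matrix.one_apply]

/-- Leaf (A2) of C5: the values of a semi-local element lie in the completions. -/
theorem semiLocalMem (f : semiLocal q K) (τ : K →+* PadicAlgCl q) :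
    (f : (K →+* PadicAlgCl q) → PadicAlgCl q) τ ∈ locField q τ := by
  classical
  obtain ⟨d, hd⟩ := exists_coeff q K (Module.finBasis ℚ K) f
  rw [hd τ]
  refine sum_mem fun j _ => mul_mem ((locField q τ).algebraMap_mem _) ?_
  exact IntermediateField.subset_adjoin ℚ_[q] (Set.range τ) ⟨_, rfl⟩

/-- **Leaf (A4) of C5** (`H88.SemiLocalDenseStatement q K`, verbatim): density of `K` in
`K ⊗ ℚ_q`, i.e. weak approximation above `q`. -/
theorem semiLocalDense :
    ∀ (f : semiLocal q K) (ε : ℝ), 0 < ε → ∃ x : K, ∀ τ : K →+* PadicAlgCl q,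
      ‖(f : (K →+* PadicAlgCl q) → PadicAlgCl q) τ - τ x‖ < ε := by
  classical
  intro f ε hε
  set b := Module.finBasis ℚ K with hb
  obtain ⟨d, hd⟩ := exists_coeff q K b f
  -- a bound for the norms of the conjugates of the basis
  set Bd : ℝ := 1 + ∑ τ : K →+* PadicAlgCl q, ∑ j, ‖τ (b j)‖ with hBd
  have hBd1 : 0 < Bd := by
    have : 0 ≤ ∑ τ : K →+* PadicAlgCl q, ∑ j, ‖τ (b j)‖ :=
      Finset.sum_nonneg fun τ _ => Finset.sum_nonneg fun j _ => norm_nonneg _
    linarith
  have hδ : 0 < ε / Bd := div_pos hε hBd1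
  choose r hr using fun j => Padic.rat_dense q (d j) hδ
  refine ⟨∑ j, r j • b j, fun τ => ?_⟩
  have h1 : τ (∑ j, r j • b j) = ∑ j, algebraMap ℚ_[q] (PadicAlgCl q) (r j : ℚ_[q]) * τ (b j) := by
    rw [map_sum]
    refine Finset.sum_congr rfl fun j _ => ?_
    rw [Rat.smul_def, map_mul, map_ratCast, map_ratCast]
  rw [hd τ, h1, ← Finset.sum_sub_distrib]
  have h2 : ∀ j, algebraMap ℚ_[q] (PadicAlgCl q) (d j) * τ (b j)
      - algebraMap ℚ_[q] (PadicAlgCl q) (r j : ℚ_[q]) * τ (b j)
      = algebraMap ℚ_[q] (PadicAlgCl q) (d j - r j) * τ (b j) := by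
    intro j
    rw [map_sub, sub_mul]
  simp only [h2]
  calc ‖∑ j, algebraMap ℚ_[q] (PadicAlgCl q) (d j - r j) * τ (b j)‖
      ≤ ∑ j, ‖algebraMap ℚ_[q] (PadicAlgCl q) (d j - r j) * τ (b j)‖ := norm_sum_le _ _
    _ ≤ ∑ j, ε / Bd * ‖τ (b j)‖ := by
        refine Finset.sum_le_sum fun j _ => ?_
        rw [norm_mul, norm_algebraMap']
        exact mul_le_mul_of_nonneg_right (hr j).le (norm_nonneg _)
    _ = ε / Bd * ∑ j, ‖τ (b j)‖ := by rw [Finset.mul_sum]
    _ < ε / Bd * Bd := by
        refine mul_lt_mul_of_pos_left ?_ hδ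
        have h3 : ∑ j, ‖τ (b j)‖ ≤ ∑ τ' : K →+* PadicAlgCl q, ∑ j, ‖τ' (b j)‖ :=
          Finset.single_le_sum (f := fun τ' : K →+* PadicAlgCl q => ∑ j, ‖τ' (b j)‖)
            (fun τ' _ => Finset.sum_nonneg fun j _ => norm_nonneg _) (Finset.mem_univ τ)
        linarith
    _ = ε := div_mul_cancel₀ ε hBd1.ne'

end Fermat.Agent.S55.H71
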