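/-
S55 (Poitou–Tate), package C8, export (B4): tasks row 556 (helper71), part (J6).

The local invariants of idele classes (`H29.jinvAt`, helper29) are compatible with inflation:
for `k ≤ K ≤ L` (number fields, `K / k` and `L / k` normal) and EVERY embedding
`τ'' : L →+* PadicAlgCl q`,

  `jinvAt k q τ'' (infl x) = jinvAt k q (τ'' ∘ algebraMap K L) x`,   `x ∈ H²(Gal(K/k), J_K)`,

where `infl = groupCohomology.map (restrictNormalHom K) (H29.ideleInfl k K L) 2`.

Route: helper83's presentation technique (`H83.linvAt_infl`) for an arbitrary coefficient module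
`A` of `Gal(K/k)` with a localisation morphism `u₀` to `K_wˣ`
(`exists_pres_rep`, `locInv_infl`), then `A := H29.ideleRep k K`, `u₀ := H29.ideleToLoc`.
-/
import Fermat.Agent.S55.H29.C8Idele
import Fermat.Agent.S55.H83.InflCompat
import Fermat.Agent.S55.H66.C3Main

set_option autoImplicit false
set_option linter.style.haveILetI false
set_option linter.unusedSectionVars false

open CategoryTheory

noncomputable section

namespace Fermat.Agent.S55.H71

open Fermat.Agent.S55.H88 Fermat.Agent.S55.H66 Fermat.Agent.S55.H29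

section Pres

variable (q : ℕ) [Fact q.Prime]
variable (k : Type) {K : Type} [Field k] [Field K] [Algebra k K] [Normal k K]
  (τ : K →+* PadicAlgCl q)

/-- Every presentation `(B, M)` of the local extension at `τ` (`B = locBase q k τ`, `M` with the
elements of `locField q τ`) carries the localisation data of `H88.LayerDefs` for ANY coefficient
module `A` with a localisation morphism `u₀`. -/
theorem exists_pres_rep (A : Rep ℤ (K ≃ₐ[k] K))
    (u₀ : Rep.res (locGalToGlobal q k τ) A ⟶
      Rep.ofAlgebraAutOnUnits (locBase q k τ) (locExt q k τ))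
    (B : IntermediateField ℚ_[q] (PadicAlgCl q)) (hB : B = locBase q k τ)
    (M : IntermediateField B (PadicAlgCl q)) (hM : ∀ z, z ∈ M ↔ z ∈ locField q τ) :
    Normal B M ∧ ∃ (ψ : (M ≃ₐ[B] M) →* (K ≃ₐ[k] K)) (e : K →+* M)
      (u : Rep.res ψ A ⟶ Rep.ofAlgebraAutOnUnits B M),
      (∀ x, ((e x : M) : PadicAlgCl q) = τ x) ∧ (∀ (α : M ≃ₐ[B] M) (x : K), α (e x) = e (ψ α x)) ∧
      (∀ x : A, (((Additive.toMul (u.hom x) : Mˣ) : M) : PadicAlgCl q)
        = (((Additive.toMul (u₀.hom x) : (locExt q k τ)ˣ) : locExt q k τ) : PadicAlgCl q)) := by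
  subst hB
  obtain rfl : M = locExt q k τ := SetLike.ext hM
  exact ⟨inferInstance, locGalToGlobal q k τ, locExtEmb q k τ, u₀,
    fun _ => rfl, locGalToGlobal_spec q k τ, fun _ => rfl⟩

/-- The local invariant computed in any presentation `(B, M, ψ, e, u)` is the one computed with
`(locGalToGlobal, u₀)`. -/
theorem locInv_eq_of_pres (A : Rep ℤ (K ≃ₐ[k] K))
    (u₀ : Rep.res (locGalToGlobal q k τ) A ⟶
      Rep.ofAlgebraAutOnUnits (locBase q k τ) (locExt q k τ))
    (B : IntermediateField ℚ_[q] (PadicAlgCl q)) (hB : B = locBase q k τ)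
    (M : IntermediateField B (PadicAlgCl q)) (hM : ∀ z, z ∈ M ↔ z ∈ locField q τ)
    [Normal B M] (ψ : (M ≃ₐ[B] M) →* (K ≃ₐ[k] K)) (e : K →+* M)
    (u : Rep.res ψ A ⟶ Rep.ofAlgebraAutOnUnits B M)
    (he : ∀ x, ((e x : M) : PadicAlgCl q) = τ x)
    (hψ : ∀ (α : M ≃ₐ[B] M) (x : K), α (e x) = e (ψ α x))
    (hu : ∀ x : A, (((Additive.toMul (u.hom x) : Mˣ) : M) : PadicAlgCl q)
        = (((Additive.toMul (u₀.hom x) : (locExt q k τ)ˣ) : locExt q k τ) : PadicAlgCl q))
    (α : groupCohomology A 2) :
    H66.inv q M ((groupCohomology.map ψ u 2).hom α)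
      = H66.inv q (locExt q k τ) ((groupCohomology.map (locGalToGlobal q k τ) u₀ 2).hom α) := by
  subst hB
  obtain rfl : M = locExt q k τ := SetLike.ext hM
  obtain rfl : e = locExtEmb q k τ := RingHom.ext fun x => Subtype.ext (he x)
  obtain rfl : ψ = locGalToGlobal q k τ := H83.locGalToGlobal_unique q k τ ψ hψ
  obtain rfl : u = u₀ := by
    refine Rep.hom_ext (DFunLike.ext _ _ fun x => ?_)
    exact congrArg Additive.ofMul (Units.ext (Subtype.ext (hu x)))
  rfl

end Pres

section Infl

variable (q : ℕ) [Fact q.Prime]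
variable (k K L : Type) [Field k] [Field K] [Field L] [Algebra k K] [Algebra k L]
  [Algebra K L] [IsScalarTower k K L] [Normal k K] [Normal k L]
  [NumberField k] [NumberField K] [NumberField L]

/-- **Local inflation for a general coefficient module.**  `A` a module of `Gal(K/k)`, `A'` a
module of `Gal(L/k)`, `f : A → A'` over the restriction `Gal(L/k) → Gal(K/k)`, with localisation
morphisms `u₀` (at `τ'' ∘ algebraMap K L`) and `u'` (at `τ''`) which agree through `f` as maps
to `PadicAlgCl q`.  Then the local invariants agree. -/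
theorem locInv_infl (hInfl : H66.LeafInvInfl q) (τ'' : L →+* PadicAlgCl q)
    (A : Rep ℤ (K ≃ₐ[k] K)) (A' : Rep ℤ (L ≃ₐ[k] L))
    (f : Rep.res (AlgEquiv.restrictNormalHom (F := k) (K₁ := L) K) A ⟶ A')
    (u₀ : Rep.res (locGalToGlobal q k (τ''.comp (algebraMap K L))) A ⟶
      Rep.ofAlgebraAutOnUnits (locBase q k (τ''.comp (algebraMap K L)))
        (locExt q k (τ''.comp (algebraMap K L))))
    (u' : Rep.res (locGalToGlobal q k τ'') A' ⟶
      Rep.ofAlgebraAutOnUnits (locBase q k τ'') (locExt q k τ''))
    (hf : ∀ x : A,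
      (((Additive.toMul (u'.hom (f.hom x)) : (locExt q k τ'')ˣ) : locExt q k τ'') : PadicAlgCl q)
        = (((Additive.toMul (u₀.hom x) : (locExt q k (τ''.comp (algebraMap K L)))ˣ) :
            locExt q k (τ''.comp (algebraMap K L))) : PadicAlgCl q))
    (α : groupCohomology A 2) :
    H66.inv q (locExt q k τ'') ((groupCohomology.map (locGalToGlobal q k τ'') u' 2).hom
        ((groupCohomology.map (AlgEquiv.restrictNormalHom (F := k) (K₁ := L) K) f 2).hom α))
      = H66.inv q (locExt q k (τ''.comp (algebraMap K L)))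
          ((groupCohomology.map (locGalToGlobal q k (τ''.comp (algebraMap K L))) u₀ 2).hom α) := by
  have hB : locBase q k τ'' = locBase q k (τ''.comp (algebraMap K L)) := H83.locBase_comp_algebraMap q k K L τ''
  have hle : locBase q k τ'' ≤ locField q (τ''.comp (algebraMap K L)) := hB ▸ locBase_le q k (τ''.comp (algebraMap K L))
  let M : IntermediateField (locBase q k τ'') (PadicAlgCl q) := IntermediateField.extendScalars hle
  have hM : ∀ z, z ∈ M ↔ z ∈ locField q (τ''.comp (algebraMap K L)) := fun z => Iff.rfl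
  obtain ⟨hN, ψ, e, u, he, hψ, hu⟩ := exists_pres_rep q k (τ''.comp (algebraMap K L)) A u₀ (locBase q k τ'') hB M hM
  have hML : M ≤ locExt q k τ'' := H83.locField_comp_le q K L τ''
  haveI : FiniteDimensional (locBase q k τ'') M :=
    H83.finiteDimensional_of_mem_iff q _ M (locField q (τ''.comp (algebraMap K L))) hM
  haveI : IsGalois (locBase q k τ'') M := H83.isGalois_of_normal q _ M
  haveI : FiniteDimensional (locBase q k τ'') (locExt q k τ'') :=
    H83.finiteDimensional_of_mem_iff q _ _ (locField q τ'') (fun _ => Iff.rfl)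
  haveI : IsGalois (locBase q k τ'') (locExt q k τ'') := H83.isGalois_of_normal q _ _
  have key : (groupCohomology.map (locGalToGlobal q k τ'') u' 2).hom
        ((groupCohomology.map (AlgEquiv.restrictNormalHom (F := k) (K₁ := L) K) f 2).hom α)
      = (H66.inflH2 hML).hom ((groupCohomology.map ψ u 2).hom α) := by
    have hfg : (AlgEquiv.restrictNormalHom (F := k) (K₁ := L) K).comp (locGalToGlobal q k τ'')
        = ψ.comp (H66.resHom hML) := by
      refine MonoidHom.ext fun β => AlgEquiv.ext fun x => e.injective (Subtype.ext ?_)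
      have h1 : ((e (ψ (H66.resHom hML β) x) : M) : PadicAlgCl q)
          = ((β (locExtEmb q k τ'' (algebraMap K L x)) : locExt q k τ'') : PadicAlgCl q) := by
        rw [← hψ, H66.resHom_apply]
        have h2 : IntermediateField.inclusion hML (e x) = locExtEmb q k τ'' (algebraMap K L x) :=
          Subtype.ext (he x)
        rw [h2]
      rw [MonoidHom.comp_apply, MonoidHom.comp_apply, h1, locGalToGlobal_spec, he]
      show τ'' (algebraMap K L ((locGalToGlobal q k τ'' β).restrictNormal K x)) = _
      rw [AlgEquiv.restrictNormal_commutes]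
      rfl
    have e1 : groupCohomology.map (AlgEquiv.restrictNormalHom (F := k) (K₁ := L) K) f 2 ≫
          groupCohomology.map (locGalToGlobal q k τ'') u' 2
        = groupCohomology.map ψ u 2 ≫ H66.inflH2 hML := by
      unfold H66.inflH2
      rw [← groupCohomology.map_comp, ← groupCohomology.map_comp]
      refine groupCohomology.map_congr hfg ?_ 2
      refine DFunLike.ext _ _ fun x => ?_
      refine congrArg Additive.ofMul (Units.ext (Subtype.ext ?_))
      exact (hf x).trans (hu x).symm
    exact congrArg (fun g => g.hom α) e1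
  rw [key, hInfl (locBase q k τ'') M (locExt q k τ'') hML,
    locInv_eq_of_pres q k (τ''.comp (algebraMap K L)) A u₀ (locBase q k τ'') hB M hM ψ e u he hψ hu]

end Infl

attribute [local instance] factOfPrimes

section IdeleLoc

variable (k : Type) {K : Type} [Field k] [Field K] [Algebra k K] [Normal k K]
  (q : Nat.Primes) (τ' : K →+* PadicAlgCl (q : ℕ))

/-- The value in `PadicAlgCl q` of the localisation of an idele at `τ'`: its `q`-component
evaluated at `τ'`. -/
theorem coe_ideleToLoc (x : ideleRep k K) :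
    (((Additive.toMul ((ideleToLoc k q τ').hom x) : (locExt (q : ℕ) k τ')ˣ) :
        locExt (q : ℕ) k τ') : PadicAlgCl (q : ℕ))
      = ((((Additive.toMul (α := ideleGroup K) x : ideleGroup K) :
          ∀ q : Nat.Primes, (semiLocal (q : ℕ) K)ˣ) q : (semiLocal (q : ℕ) K)ˣ) :
            (K →+* PadicAlgCl (q : ℕ)) → PadicAlgCl (q : ℕ)) τ' := rfl

theorem jinvAt_apply (x : groupCohomology (ideleRep k K) 2) :
    jinvAt k q τ' x = H66.inv (q : ℕ) (locExt (q : ℕ) k τ')
      ((groupCohomology.map (locGalToGlobal (q : ℕ) k τ') (ideleToLoc k q τ') 2).hom x) := rfl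

end IdeleLoc

section Idele

variable (k K L : Type) [Field k] [Field K] [Field L] [Algebra k K] [Algebra k L]
  [Algebra K L] [IsScalarTower k K L] [Normal k K] [Normal k L]
  [NumberField k] [NumberField K] [NumberField L]

theorem toMul_ideleInfl (x : ideleRep k K) :
    (Additive.toMul (α := ideleGroup L) ((ideleInfl k K L).hom x) : ideleGroup L)
      = ideleInflHom K L (Additive.toMul (α := ideleGroup K) x) := rfl

/-- The localisation at `τ''` of an inflated idele is the localisation at
`τ'' ∘ algebraMap K L` of the idele. -/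
theorem coe_ideleToLoc_ideleInfl (q : Nat.Primes) (τ'' : L →+* PadicAlgCl (q : ℕ))
    (x : ideleRep k K) :
    (((Additive.toMul ((ideleToLoc k q τ'').hom ((ideleInfl k K L).hom x)) :
        (locExt (q : ℕ) k τ'')ˣ) : locExt (q : ℕ) k τ'') : PadicAlgCl (q : ℕ))
      = (((Additive.toMul ((ideleToLoc k q (τ''.comp (algebraMap K L))).hom x) :
          (locExt (q : ℕ) k (τ''.comp (algebraMap K L)))ˣ) :
            locExt (q : ℕ) k (τ''.comp (algebraMap K L))) : PadicAlgCl (q : ℕ)) :=
  (coe_ideleToLoc k q τ'' ((ideleInfl k K L).hom x)).trans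
    ((ideleInflHom_apply K L (Additive.toMul (α := ideleGroup K) x) q τ'').trans
      (coe_ideleToLoc k q (τ''.comp (algebraMap K L)) x).symm)

/-- **(J6)** The idele invariant at an embedding `τ''` of `L` of an inflated class is the idele
invariant at `τ'' ∘ algebraMap K L`. -/
theorem jinvAt_ideleInfl (q : Nat.Primes) (τ'' : L →+* PadicAlgCl (q : ℕ))
    (x : groupCohomology (ideleRep k K) 2) :
    jinvAt k q τ'' ((groupCohomology.map (AlgEquiv.restrictNormalHom (F := k) (K₁ := L) K)
        (ideleInfl k K L) 2).hom x)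
      = jinvAt k q (τ''.comp (algebraMap K L)) x :=
  locInv_infl (q : ℕ) k K L (c3_invInfl (q : ℕ)) τ'' (ideleRep k K) (ideleRep k L)
    (ideleInfl k K L) (ideleToLoc k q (τ''.comp (algebraMap K L))) (ideleToLoc k q τ'')
    (coe_ideleToLoc_ideleInfl k K L q τ'') x

/-- **(J6)**, layer form: `jinv k L v ∘ infl = jinv k K v`, given that the idele invariant of
the layer `K / k` depends only on the place of `k` (the idele form of (LINV-INDEP)). -/
theorem jinv_ideleInfl
    (hIndep : ∀ (q : Nat.Primes) (τ' τ'' : K →+* PadicAlgCl (q : ℕ)),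
      (placeSetoid (q : ℕ) k).r (τ'.comp (algebraMap k K)) (τ''.comp (algebraMap k K)) →
        jinvAt k q τ' = jinvAt k q τ'')
    (v : FinPlace k) (x : groupCohomology (ideleRep k K) 2) :
    jinv k L v ((groupCohomology.map (AlgEquiv.restrictNormalHom (F := k) (K₁ := L) K)
        (ideleInfl k K L) 2).hom x) = jinv k K v x := by
  show jinvAt k v.1 (v.ext L) _ = jinvAt k v.1 (v.ext K) x
  rw [jinvAt_ideleInfl k K L v.1 (v.ext L) x]
  refine congrArg (fun f => f x) (hIndep v.1 _ _ ?_)
  have hL : (v.ext L).comp (algebraMap k L) = v.emb := FinPlace.ext_comp L v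
  have hK : (v.ext K).comp (algebraMap k K) = v.emb := FinPlace.ext_comp K v
  have h1 : ((v.ext L).comp (algebraMap K L)).comp (algebraMap k K)
      = (v.ext K).comp (algebraMap k K) := by
    rw [RingHom.comp_assoc, ← IsScalarTower.algebraMap_eq, hL, hK]
  rw [h1]

end Idele

end Fermat.Agent.S55.H71
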