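/-
S55 (Poitou–Tate), package C8, export (B4): tasks row 556 (helper71), part (J5).

The local invariants of idele classes (`H29.jinvAt`, helper29) and restriction: for number fields
`k ≤ E ≤ K`, `K / k` finite normal, and EVERY embedding `τ' : K →+* PadicAlgCl q`,

  `jinvAt E q τ' (res x) = [E_w : k_v] • jinvAt k q τ' x`,   `x ∈ H²(Gal(K/k), J_K)`,

where `res = groupCohomology.map (H29.subGal k E K) (H29.ideleSub k E K) 2` and
`[E_w : k_v] = finrank (locBase q k τ') (H45.midExt q k E K τ')` (the same local degree as in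
helper45's `H45.linvAt_sub`; `H45.finrank_locExt_eq` rewrites it as
`finrank (locBase q k τE) (locExt q k τE)` for `τE = τ' ∘ algebraMap E K`).

Route: helper45's proof of (SUBTOWER-COMPAT) with `H29.ideleToLoc` in place of
`H88.globalToLocUnits`, and C3's `H76.leafInvRes_holds`.
-/
import Fermat.Agent.S55.H71.JinvInfl
import Fermat.Agent.S55.H45.SubTowerCompat
import Fermat.Agent.S55.H76.InvResFinal

set_option autoImplicit false
set_option linter.style.haveILetI false
set_option linter.unusedSectionVars false

open CategoryTheory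

noncomputable section

namespace Fermat.Agent.S55.H71

open Fermat.Agent.S55.H88 Fermat.Agent.S55.H66 Fermat.Agent.S55.H29 Fermat.Agent.S55.H45

attribute [local instance] factOfPrimes

section Res

variable (k E K : Type) [Field k] [Field E] [Field K] [Algebra k E] [Algebra E K] [Algebra k K]
  [IsScalarTower k E K] [Normal k K] [Normal E K]
  (q : Nat.Primes) (τ' : K →+* PadicAlgCl (q : ℕ))

/-- The two composite maps `Gal(K_w/E_w) → Gal(K/k)` agree (`H45.galHom_eq` for
`H29.subGal`). -/
theorem subGal_comp_locGalToGlobal :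
    (subGal k E K).comp (locGalToGlobal (q : ℕ) E τ') =
      (locGalToGlobal (q : ℕ) k τ').comp (upHomE (q : ℕ) k E K τ') :=
  galHom_eq (q : ℕ) k E K τ'

/-- The localisation at `τ'` of an idele of `K`, over `E` and over `k`: the same element of
`PadicAlgCl q`. -/
theorem coe_ideleToLoc_ideleSub (x : ideleRep k K) :
    (((Additive.toMul ((ideleToLoc E q τ').hom ((ideleSub k E K).hom x)) :
        (locExt (q : ℕ) E τ')ˣ) : locExt (q : ℕ) E τ') : PadicAlgCl (q : ℕ))
      = (((Additive.toMul ((ideleToLoc k q τ').hom x) : (locExt (q : ℕ) k τ')ˣ) :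
          locExt (q : ℕ) k τ') : PadicAlgCl (q : ℕ)) :=
  (coe_ideleToLoc E q τ' ((ideleSub k E K).hom x)).trans (coe_ideleToLoc k q τ' x).symm

/-- Localisation at `τ'` of the restriction to `Gal(K/E)` of an idele class = local restriction
of its localisation. -/
theorem locJ2At_sub (x : groupCohomology (ideleRep k K) 2) :
    (groupCohomology.map (locGalToGlobal (q : ℕ) E τ') (ideleToLoc E q τ') 2).hom
        ((groupCohomology.map (subGal k E K) (ideleSub k E K) 2).hom x) =
      (groupCohomology.map (upHomE (q : ℕ) k E K τ') (upRepE (q : ℕ) k E K τ') 2).hom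
        ((groupCohomology.map (locGalToGlobal (q : ℕ) k τ') (ideleToLoc k q τ') 2).hom x) := by
  have e1 : groupCohomology.map (subGal k E K) (ideleSub k E K) 2 ≫
        groupCohomology.map (locGalToGlobal (q : ℕ) E τ') (ideleToLoc E q τ') 2
      = groupCohomology.map (locGalToGlobal (q : ℕ) k τ') (ideleToLoc k q τ') 2 ≫
        groupCohomology.map (upHomE (q : ℕ) k E K τ') (upRepE (q : ℕ) k E K τ') 2 := by
    rw [← groupCohomology.map_comp, ← groupCohomology.map_comp]
    refine groupCohomology.map_congr (subGal_comp_locGalToGlobal k E K q τ') ?_ 2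
    refine DFunLike.ext _ _ fun y => ?_
    refine congrArg Additive.ofMul (Units.ext (Subtype.ext ?_))
    exact (coe_ideleToLoc_ideleSub k E K q τ' y).trans
      (H66.upEquiv_symm_apply_coe (midExt_le (q : ℕ) k E K τ') _).symm
  exact congrArg (fun g => g.hom x) e1

/-- **(J5)** Restriction for one embedding:
`jinv_{K/E, τ'} (res x) = [E_w : k_v] • jinv_{K/k, τ'} x`. -/
theorem jinvAt_ideleSub [NumberField k] [FiniteDimensional k K]
    (x : groupCohomology (ideleRep k K) 2) :
    jinvAt E q τ' ((groupCohomology.map (subGal k E K) (ideleSub k E K) 2).hom x) =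
      Module.finrank (locBase (q : ℕ) k τ') (midExt (q : ℕ) k E K τ') • jinvAt k q τ' x := by
  haveI : FiniteDimensional E K := Module.Finite.right k E K
  haveI h1 : FiniteDimensional ℚ_[(q : ℕ)] (locBase (q : ℕ) k τ') :=
    H41.finiteDimensional_locField (q : ℕ) k (τ'.comp (algebraMap k K))
  haveI h2 : FiniteDimensional (locBase (q : ℕ) k τ') (locExt (q : ℕ) k τ') :=
    H20.finiteDimensional_extendScalars (q : ℕ) k τ'
  haveI h3 : FiniteDimensional (locBase (q : ℕ) k τ') (midExt (q : ℕ) k E K τ') :=
    Module.Finite.of_injective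
      (IntermediateField.inclusion (midExt_le (q : ℕ) k E K τ')).toLinearMap
      (IntermediateField.inclusion_injective (midExt_le (q : ℕ) k E K τ'))
  haveI h4 : IsGalois (locBase (q : ℕ) k τ') (locExt (q : ℕ) k τ') := ⟨⟩
  haveI h5 : FiniteDimensional (midExt (q : ℕ) k E K τ')
      (IntermediateField.extendScalars (midExt_le (q : ℕ) k E K τ')) :=
    H20.finiteDimensional_extendScalars (q : ℕ) E τ'
  haveI h6' : IsGalois (locBase (q : ℕ) E τ') (locExt (q : ℕ) E τ') := ⟨⟩
  haveI h6 : IsGalois (midExt (q : ℕ) k E K τ')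
      (IntermediateField.extendScalars (midExt_le (q : ℕ) k E K τ')) := h6'
  have h := H76.leafInvRes_holds (q : ℕ) (locBase (q : ℕ) k τ') (midExt (q : ℕ) k E K τ')
    (locExt (q : ℕ) k τ') (midExt_le (q : ℕ) k E K τ')
    ((groupCohomology.map (locGalToGlobal (q : ℕ) k τ') (ideleToLoc k q τ') 2).hom x)
  rw [jinvAt_apply, jinvAt_apply, locJ2At_sub]
  exact h

/-- **(J5)**, layer form: for a finite place `w` of `E`,
`jinv E K w (res x) = [E_w : k_v] • jinv k K (w.below k) x`, given that the idele invariant of
the layer `K / k` depends only on the place of `k` (the idele form of (LINV-INDEP)). -/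
theorem jinv_ideleSub [NumberField k] [FiniteDimensional k K]
    (hIndep : ∀ (q : Nat.Primes) (τ' τ'' : K →+* PadicAlgCl (q : ℕ)),
      (placeSetoid (q : ℕ) k).r (τ'.comp (algebraMap k K)) (τ''.comp (algebraMap k K)) →
        jinvAt k q τ' = jinvAt k q τ'')
    (w : FinPlace E) (x : groupCohomology (ideleRep k K) 2) :
    jinv E K w ((groupCohomology.map (subGal k E K) (ideleSub k E K) 2).hom x) =
      w.locDeg k • jinv k K (w.below k) x := by
  -- the embedding of `K` chosen above `w`
  have hτ : (w.ext K).comp (algebraMap E K) = w.emb := FinPlace.ext_comp K w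
  have hk : (w.ext K).comp (algebraMap k K) = w.emb.comp (algebraMap k E) := by
    rw [← hτ]
    refine RingHom.ext fun y => ?_
    show (w.ext K) (algebraMap k K y) = (w.ext K) (algebraMap E K (algebraMap k E y))
    rw [← IsScalarTower.algebraMap_apply]
  have hrel : (placeSetoid (w.1 : ℕ) k).r (((w.below k).ext K).comp (algebraMap k K))
      ((w.ext K).comp (algebraMap k K)) := by
    rw [FinPlace.ext_comp K (w.below k), hk]
    refine Quotient.exact (s := placeSetoid (w.1 : ℕ) k) ?_
    have h1 : (⟦(w.below k).emb⟧ : Quotient (placeSetoid (w.1 : ℕ) k)) = (w.below k).2 :=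
      Quotient.out_eq _
    have h2 : (⟦w.emb⟧ : Quotient (placeSetoid (w.1 : ℕ) E)) = w.2 := Quotient.out_eq _
    rw [h1]
    show PlaceAbove.restrict (w.1 : ℕ) k E w.2 = _
    rw [← h2]
    rfl
  have hind := hIndep w.1 ((w.below k).ext K) (w.ext K) hrel
  show jinvAt E w.1 (w.ext K) _ =
    Module.finrank (locBase (w.1 : ℕ) k w.emb) (locExt (w.1 : ℕ) k w.emb) •
      jinvAt k w.1 ((w.below k).ext K) x
  rw [hind, finrank_locExt_eq (w.1 : ℕ) k E K (w.ext K) w.emb hτ]
  exact jinvAt_ideleSub k E K w.1 (w.ext K) x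

end Res

end Fermat.Agent.S55.H71
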